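import Fermat.Agent.S55.LOC.PowIndex.PrincipalUnits

/-!
# S55-LOC (A): the index of `p`-th powers in the multiplicative group of a local field

`#(Fˣ / (Fˣ)^p) = #μ_p(F) * p * #(O / p)` for `F` the fraction field of a complete discrete
valuation ring `O` of characteristic zero with finite residue field.
-/

namespace Fermat.Agent.S55.LOC

section decomposition

variable (O F : Type*) [CommRing O] [IsDomain O] [IsDiscreteValuationRing O]
  [Field F] [Algebra O F] [IsFractionRing O F]

/-- `(w, n) ↦ w * ϖ ^ n`. -/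
noncomputable def unitsProdIntHom (ϖ : O) (hϖ : ϖ ≠ 0) : Oˣ × Multiplicative ℤ →* Fˣ :=
  MonoidHom.coprod (Units.map ((algebraMap O F : O →+* F) : O →* F))
    (zpowersHom Fˣ (Units.mk0 (algebraMap O F ϖ)
      ((map_ne_zero_iff _ (IsFractionRing.injective O F)).mpr hϖ)))

omit [IsDomain O] [IsDiscreteValuationRing O] in
theorem unitsProdIntHom_apply (ϖ : O) (hϖ : ϖ ≠ 0) (w : Oˣ) (n : ℤ) :
    ((unitsProdIntHom O F ϖ hϖ (w, Multiplicative.ofAdd n) : Fˣ) : F)
      = algebraMap O F w * (algebraMap O F ϖ) ^ n := by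
  simp [unitsProdIntHom]

theorem unitsProdIntHom_bijective {ϖ : O} (hϖ : Irreducible ϖ) :
    Function.Bijective (unitsProdIntHom O F ϖ hϖ.ne_zero) := by
  have hinj : Function.Injective (algebraMap O F) := IsFractionRing.injective O F
  have hϖF : algebraMap O F ϖ ≠ 0 := (map_ne_zero_iff _ hinj).mpr hϖ.ne_zero
  constructor
  · rw [injective_iff_map_eq_one]
    rintro ⟨w, n⟩ h
    obtain ⟨n, rfl⟩ := Multiplicative.ofAdd.surjective n
    have h1 : algebraMap O F w * (algebraMap O F ϖ) ^ n = 1 := by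
      rw [← unitsProdIntHom_apply O F ϖ hϖ.ne_zero, h]; rfl
    obtain ⟨k, rfl | rfl⟩ := n.eq_nat_or_neg
    · rw [zpow_natCast, ← map_pow, ← map_mul, ← map_one (algebraMap O F)] at h1
      have h2 := hinj h1
      have h3 : IsUnit (ϖ ^ k) := IsUnit.of_mul_eq_one _ (by rw [mul_comm]; exact h2)
      have hk : k = 0 := by
        by_contra hk
        exact hϖ.not_isUnit ((isUnit_pow_iff hk).mp h3)
      subst hk
      rw [pow_zero, mul_one] at h2
      have : w = 1 := Units.ext h2
      subst this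
      rfl
    · rw [zpow_neg, zpow_natCast, ← div_eq_mul_inv, div_eq_one_iff_eq (pow_ne_zero _ hϖF),
        ← map_pow] at h1
      have h2 := hinj h1
      have h3 : IsUnit (ϖ ^ k) := h2 ▸ w.isUnit
      have hk : k = 0 := by
        by_contra hk
        exact hϖ.not_isUnit ((isUnit_pow_iff hk).mp h3)
      subst hk
      rw [pow_zero] at h2
      have : w = 1 := Units.ext h2
      subst this
      rfl
  · intro x
    obtain ⟨a, b, hb, hab⟩ := IsFractionRing.div_surjective (A := O) (x : F)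
    have hb0 : b ≠ 0 := nonZeroDivisors.ne_zero hb
    have ha0 : a ≠ 0 := by
      rintro rfl
      rw [map_zero, zero_div] at hab
      exact x.ne_zero hab.symm
    obtain ⟨m, u1, rfl⟩ := IsDiscreteValuationRing.eq_unit_mul_pow_irreducible ha0 hϖ
    obtain ⟨k, u2, rfl⟩ := IsDiscreteValuationRing.eq_unit_mul_pow_irreducible hb0 hϖ
    refine ⟨(u1 / u2, Multiplicative.ofAdd ((m : ℤ) - k)), ?_⟩
    apply Units.ext
    rw [unitsProdIntHom_apply, ← hab, zpow_sub₀ hϖF, zpow_natCast, zpow_natCast]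
    have hu2 : algebraMap O F u2 ≠ 0 := (map_ne_zero_iff _ hinj).mpr u2.ne_zero
    have h1 : algebraMap O F ((u1 / u2 : Oˣ) : O) = algebraMap O F u1 / algebraMap O F u2 := by
      rw [eq_div_iff hu2, ← map_mul]
      congr 1
      rw [← Units.val_mul, div_mul_cancel]
    rw [h1, map_mul, map_mul, map_pow, map_pow]
    field_simp

/-- `Fˣ ≃* Oˣ × ℤ`, depending on the choice of a uniformizer. -/
noncomputable def unitsProdIntEquiv {ϖ : O} (hϖ : Irreducible ϖ) :
    Oˣ × Multiplicative ℤ ≃* Fˣ :=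
  MulEquiv.ofBijective (unitsProdIntHom O F ϖ hϖ.ne_zero) (unitsProdIntHom_bijective O F hϖ)

end decomposition

theorem rootsOfUnity_eq_ker_pow (M : Type*) [CommMonoid M] (p : ℕ) :
    rootsOfUnity p M = (powMonoidHom p : Mˣ →* Mˣ).ker := by
  ext x
  rw [mem_rootsOfUnity, MonoidHom.mem_ker, powMonoidHom_apply]

/-- **S55-LOC (A)**: `#(Fˣ / (Fˣ)^p) = #μ_p(F) * p * #(O / p)`. -/
theorem card_units_quot_pow (O F : Type*) [CommRing O] [IsDomain O] [IsDiscreteValuationRing O]
    [IsAdicComplete (IsLocalRing.maximalIdeal O) O] [Finite (IsLocalRing.ResidueField O)]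
    [CharZero O] [Field F] [Algebra O F] [IsFractionRing O F] (p : ℕ) [Fact p.Prime] :
    Nat.card (Fˣ ⧸ (powMonoidHom p : Fˣ →* Fˣ).range)
      = Nat.card (rootsOfUnity p F) * p * Nat.card (O ⧸ Ideal.span {(p : O)}) := by
  have hp0 : p ≠ 0 := (Fact.out : p.Prime).ne_zero
  obtain ⟨ϖ, hϖ⟩ := IsDiscreteValuationRing.exists_irreducible O
  have e := unitsProdIntEquiv O F hϖ
  change (powMonoidHom p : Fˣ →* Fˣ).range.index = _
  rw [rootsOfUnity_eq_ker_pow, ← index_range_pow_congr e, ← card_ker_pow_congr e,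
    index_range_pow_prod, card_ker_pow_prod, index_range_pow_int, card_ker_pow_int hp0,
    index_range_pow_units p hp0]
  ring

end Fermat.Agent.S55.LOC
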